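/-
P-MW row 846 (LPF-G-NORMINF), helper65.

`normInf (𝒞 : MWDatum R) (hB : BarFacts 𝒞) : NormInfStatement 𝒞`:
a ring homomorphism `φ : ℚ̄ ⊗ R → 𝒦` mapping `ℚ̄` into a valuation ring `V` either has all its
values in `V`, or `|φ t| > 1` and `|φ a| ^ e = |φ t| ^ (pole a)` for all `a ≠ 0`.

Proof.  Everything is done for a valuation `ν` on `ℚ̄ ⊗ R` with `ν ≤ 1` on the constants.
* `ni_decomp`: `a ^ d = c s ^ n + g`, `d = pole s`, `n = pole a`, `pole g < n d`.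
* `ni_gens`: adapted generators of `WBar m`.
* `ni_upper`: for `s` with `1 ≤ ν s` and (`2 ≤ pole s` or `1 < ν s`):
  `ν a ^ pole s ≤ ν s ^ pole a` (the maximum `θ` of the ratios on the generators bounds all
  ratios, and `θ > 1` is impossible).
* `ni_lower`: the reverse inequality when `1 < ν s`.
-/
import Mathlib
import Fermat.Agent.H89.MW.LpfGeoInterfaces

set_option autoImplicit false
set_option linter.style.haveILetI false
set_option linter.unusedSectionVars false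

noncomputable section

open Module TensorProduct

namespace Fermat.Agent.H65.MW

open Fermat.Agent.H92.MW Fermat.Agent.H89.MW

variable {R : Type} [CommRing R] [Algebra ℚ R] [IsDedekindDomain R]

section Pole

variable {𝒞 : MWDatum R} (hB : BarFacts 𝒞)
include hB

theorem ni_pole_zero : poleB 𝒞 (0 : QQbar ⊗[ℚ] R) = 0 :=
  Nat.le_zero.mp ((hB.mem_iff_pole 0 0).mp (WBar 𝒞 0).zero_mem)

theorem ni_pole_const (c : QQbar) : poleB 𝒞 (algebraMap QQbar (QQbar ⊗[ℚ] R) c) = 0 :=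
  Nat.le_zero.mp ((hB.mem_iff_pole _ 0).mp (hB.const_mem c))

theorem ni_pole_one : poleB 𝒞 (1 : QQbar ⊗[ℚ] R) = 0 := by
  have := ni_pole_const hB 1
  rwa [map_one] at this

theorem ni_mem_pole (a : QQbar ⊗[ℚ] R) : a ∈ WBar 𝒞 (poleB 𝒞 a) :=
  (hB.mem_iff_pole a _).mpr le_rfl

theorem ni_pole_pow {a : QQbar ⊗[ℚ] R} (ha : a ≠ 0) (k : ℕ) :
    poleB 𝒞 (a ^ k) = k * poleB 𝒞 a := by
  haveI := 𝒞.bar_dedekind
  induction k with
  | zero => rw [pow_zero, ni_pole_one hB, Nat.zero_mul]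
  | succ k ih =>
    rw [pow_succ, hB.pole_mul _ _ (pow_ne_zero k ha) ha, ih]
    ring

theorem ni_pole_eq_of_mem {a : QQbar ⊗[ℚ] R} {m : ℕ} (h1 : a ∈ WBar 𝒞 (m + 1))
    (h2 : a ∉ WBar 𝒞 m) : poleB 𝒞 a = m + 1 := by
  have h3 := (hB.mem_iff_pole a _).mp h1
  have h4 := mt (hB.mem_iff_pole a m).mpr h2
  omega

theorem ni_pole_add_const (a : QQbar ⊗[ℚ] R) (c : QQbar) :
    poleB 𝒞 (a + algebraMap QQbar (QQbar ⊗[ℚ] R) c) = poleB 𝒞 a := by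
  have hc : ∀ m, algebraMap QQbar (QQbar ⊗[ℚ] R) c ∈ WBar 𝒞 m :=
    fun m => hB.mono (Nat.zero_le m) (hB.const_mem c)
  apply le_antisymm
  · rw [← hB.mem_iff_pole]
    exact (WBar 𝒞 _).add_mem (ni_mem_pole hB a) (hc _)
  · rw [← hB.mem_iff_pole]
    have h := (WBar 𝒞 _).sub_mem
      (ni_mem_pole hB (a + algebraMap QQbar (QQbar ⊗[ℚ] R) c)) (hc _)
    rwa [add_sub_cancel_right] at h

theorem ni_pole_t : poleB 𝒞 (tBar 𝒞) = 𝒞.e := by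
  have h1 := (hB.mem_iff_pole _ _).mp hB.t_mem
  have h2 := mt (hB.mem_iff_pole (tBar 𝒞) (𝒞.e - 1)).mpr hB.t_not_mem
  omega

theorem ni_eq_const_of_pole {a : QQbar ⊗[ℚ] R} (h : poleB 𝒞 a = 0) :
    ∃ c : QQbar, a = algebraMap QQbar (QQbar ⊗[ℚ] R) c :=
  hB.eq_const a ((hB.mem_iff_pole a 0).mpr h.le)

/-- `a ^ d = c s ^ n + g` with `d = pole s`, `n = pole a`, `c ≠ 0` and `pole g < n d`. -/
theorem ni_decomp {a s : QQbar ⊗[ℚ] R} (ha : a ≠ 0) (hs : s ≠ 0) (hd : 1 ≤ poleB 𝒞 s) :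
    ∃ (c : QQbar) (g : QQbar ⊗[ℚ] R), a ^ poleB 𝒞 s = c • s ^ poleB 𝒞 a + g ∧ c ≠ 0 ∧
      (g ≠ 0 → poleB 𝒞 g < poleB 𝒞 a * poleB 𝒞 s) := by
  haveI := 𝒞.bar_dedekind
  have hpa : poleB 𝒞 (a ^ poleB 𝒞 s) = poleB 𝒞 a * poleB 𝒞 s := by
    rw [ni_pole_pow hB ha, Nat.mul_comm]
  have hps : poleB 𝒞 (s ^ poleB 𝒞 a) = poleB 𝒞 a * poleB 𝒞 s := ni_pole_pow hB hs _
  rcases Nat.eq_zero_or_pos (poleB 𝒞 a) with h0 | hpos
  · obtain ⟨c₀, hc₀⟩ := ni_eq_const_of_pole hB h0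
    have hc₀0 : c₀ ≠ 0 := by
      rintro rfl
      rw [map_zero] at hc₀
      exact ha hc₀
    refine ⟨c₀ ^ poleB 𝒞 s, 0, ?_, pow_ne_zero _ hc₀0, fun h => absurd rfl h⟩
    rw [h0, pow_zero, add_zero, Algebra.smul_def, mul_one, map_pow, ← hc₀]
  · obtain ⟨m, hm⟩ : ∃ m, poleB 𝒞 a * poleB 𝒞 s = m + 1 :=
      ⟨poleB 𝒞 a * poleB 𝒞 s - 1, by
        have := Nat.mul_pos hpos hd
        omega⟩
    have h1 : a ^ poleB 𝒞 s ∈ WBar 𝒞 (m + 1) := by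
      rw [hB.mem_iff_pole, hpa, hm]
    have h2 : s ^ poleB 𝒞 a ∈ WBar 𝒞 (m + 1) := by
      rw [hB.mem_iff_pole, hps, hm]
    have h3 : s ^ poleB 𝒞 a ∉ WBar 𝒞 m := by
      rw [hB.mem_iff_pole, hps, hm]
      omega
    obtain ⟨c, hc⟩ := hB.step m _ _ h1 h2 h3
    have hg : ∀ g : QQbar ⊗[ℚ] R, g ∈ WBar 𝒞 m → poleB 𝒞 g < poleB 𝒞 a * poleB 𝒞 s := by
      intro g hg
      have := (hB.mem_iff_pole g m).mp hg
      omega
    refine ⟨c, a ^ poleB 𝒞 s - c • s ^ poleB 𝒞 a, by ring, ?_, fun _ => hg _ hc⟩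
    rintro rfl
    rw [zero_smul, sub_zero] at hc
    have := hg _ hc
    rw [hpa] at this
    exact lt_irrefl _ this

end Pole

section Val

variable {𝒞 : MWDatum R} (hB : BarFacts 𝒞)
variable {Γ₀ : Type*} [LinearOrderedCommGroupWithZero Γ₀] (ν : Valuation (QQbar ⊗[ℚ] R) Γ₀)
  (hν : ∀ c : QQbar, ν (algebraMap QQbar (QQbar ⊗[ℚ] R) c) ≤ 1)
include hν

theorem ni_val_const {c : QQbar} (hc : c ≠ 0) :
    ν (algebraMap QQbar (QQbar ⊗[ℚ] R) c) = 1 := by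
  apply le_antisymm (hν c)
  have h1 : ν (algebraMap QQbar (QQbar ⊗[ℚ] R) c) * ν (algebraMap QQbar (QQbar ⊗[ℚ] R) c⁻¹)
      = 1 := by
    rw [← ν.map_mul, ← map_mul, mul_inv_cancel₀ hc, map_one, ν.map_one]
  by_contra h
  push Not at h
  have h2 : ν (algebraMap QQbar (QQbar ⊗[ℚ] R) c) *
      ν (algebraMap QQbar (QQbar ⊗[ℚ] R) c⁻¹) < 1 :=
    calc ν (algebraMap QQbar (QQbar ⊗[ℚ] R) c) * ν (algebraMap QQbar (QQbar ⊗[ℚ] R) c⁻¹)
        ≤ ν (algebraMap QQbar (QQbar ⊗[ℚ] R) c) * 1 := mul_le_mul_right (hν _) _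
      _ = ν (algebraMap QQbar (QQbar ⊗[ℚ] R) c) := mul_one _
      _ < 1 := h
  exact h2.ne h1

theorem ni_val_smul_le (c : QQbar) (x : QQbar ⊗[ℚ] R) : ν (c • x) ≤ ν x := by
  rw [Algebra.smul_def, ν.map_mul]
  calc ν (algebraMap QQbar (QQbar ⊗[ℚ] R) c) * ν x ≤ 1 * ν x := mul_le_mul_left (hν c) _
    _ = ν x := one_mul _

theorem ni_val_smul {c : QQbar} (hc : c ≠ 0) (x : QQbar ⊗[ℚ] R) : ν (c • x) = ν x := by
  rw [Algebra.smul_def, ν.map_mul, ni_val_const ν hν hc, one_mul]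

include hB

/-- Adapted generators of `WBar m`. -/
theorem ni_gens (m : ℕ) : ∃ G : Finset (QQbar ⊗[ℚ] R), (1 : QQbar ⊗[ℚ] R) ∈ G ∧
    ∀ a ∈ WBar 𝒞 m, a ≠ 0 → ∃ g ∈ G, poleB 𝒞 g ≤ poleB 𝒞 a ∧ ν a ≤ ν g := by
  classical
  induction m with
  | zero =>
    refine ⟨{1}, Finset.mem_singleton_self _, fun a ha ha0 =>
      ⟨1, Finset.mem_singleton_self _, ?_, ?_⟩⟩
    · rw [ni_pole_one hB]
      exact Nat.zero_le _
    · obtain ⟨c, rfl⟩ := hB.eq_const a ha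
      rw [ν.map_one]
      exact hν c
  | succ m ih =>
    obtain ⟨G, h1, hG⟩ := ih
    by_cases hex : ∃ b ∈ WBar 𝒞 (m + 1), b ∉ WBar 𝒞 m
    · obtain ⟨b, hb1, hb2⟩ := hex
      refine ⟨insert b G, Finset.mem_insert_of_mem h1, fun a ha ha0 => ?_⟩
      by_cases ham : a ∈ WBar 𝒞 m
      · obtain ⟨g, hg, h⟩ := hG a ham ha0
        exact ⟨g, Finset.mem_insert_of_mem hg, h⟩
      · obtain ⟨c, hc⟩ := hB.step m a b ha hb1 hb2
        have hpa : poleB 𝒞 a = m + 1 := ni_pole_eq_of_mem hB ha ham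
        have hpb : poleB 𝒞 b = m + 1 := ni_pole_eq_of_mem hB hb1 hb2
        have hsum : a = c • b + (a - c • b) := by ring
        have hle : ν a ≤ max (ν (c • b)) (ν (a - c • b)) := by
          conv_lhs => rw [hsum]
          exact ν.map_add _ _
        rcases le_max_iff.mp hle with h | h
        · exact ⟨b, Finset.mem_insert_self _ _, by rw [hpa, hpb],
            h.trans (ni_val_smul_le ν hν c b)⟩
        · by_cases h0 : a - c • b = 0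
          · rw [h0, ν.map_zero] at h
            exact ⟨b, Finset.mem_insert_self _ _, by rw [hpa, hpb], h.trans zero_le⟩
          · obtain ⟨g, hg, hgp, hgv⟩ := hG _ hc h0
            refine ⟨g, Finset.mem_insert_of_mem hg, ?_, h.trans hgv⟩
            have := (hB.mem_iff_pole _ m).mp hc
            omega
    · refine ⟨G, h1, fun a ha ha0 => hG a ?_ ha0⟩
      by_contra ham
      exact hex ⟨a, ha, ham⟩

/-- The bound `ν a ^ d ≤ θ σ ^ (pole a)` propagates from `WBar (m₀ + d)` to everything. -/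
theorem ni_bound {s : QQbar ⊗[ℚ] R} (hs : s ≠ 0) (hd : 1 ≤ poleB 𝒞 s) (hσ : 1 ≤ ν s) (θ : Γ₀)
    (hθ : ∀ a ∈ WBar 𝒞 (𝒞.m₀ + poleB 𝒞 s), a ≠ 0 →
      ν a ^ poleB 𝒞 s ≤ θ * ν s ^ poleB 𝒞 a) :
    ∀ (n : ℕ) (a : QQbar ⊗[ℚ] R), a ≠ 0 → poleB 𝒞 a = n →
      ν a ^ poleB 𝒞 s ≤ θ * ν s ^ n := by
  haveI := 𝒞.bar_dedekind
  intro n
  induction n using Nat.strong_induction_on with
  | _ n ih =>
    intro a ha h
    by_cases hn : n ≤ 𝒞.m₀ + poleB 𝒞 s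
    · have := hθ a ((hB.mem_iff_pole _ _).mpr (h ▸ hn)) ha
      rwa [h] at this
    · push Not at hn
      obtain ⟨b, hb1, hb2⟩ := hB.gap (n - poleB 𝒞 s - 1) (by omega)
      have hpb : poleB 𝒞 b = n - poleB 𝒞 s := by
        rw [ni_pole_eq_of_mem hB hb1 hb2]
        omega
      have hb0 : b ≠ 0 := by
        rintro rfl
        exact hb2 (Submodule.zero_mem _)
      have hpsb : poleB 𝒞 (s * b) = n := by
        rw [hB.pole_mul _ _ hs hb0, hpb]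
        omega
      obtain ⟨m, rfl⟩ : ∃ m, n = m + 1 := ⟨n - 1, by omega⟩
      have h1 : a ∈ WBar 𝒞 (m + 1) := (hB.mem_iff_pole _ _).mpr h.le
      have h2 : s * b ∈ WBar 𝒞 (m + 1) := (hB.mem_iff_pole _ _).mpr hpsb.le
      have h3 : s * b ∉ WBar 𝒞 m := by
        rw [hB.mem_iff_pole, hpsb]
        omega
      obtain ⟨c, hc⟩ := hB.step m a (s * b) h1 h2 h3
      have hsum : a = c • (s * b) + (a - c • (s * b)) := by ring
      have hle : ν a ≤ max (ν (c • (s * b))) (ν (a - c • (s * b))) := by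
        conv_lhs => rw [hsum]
        exact ν.map_add _ _
      have hbound1 : ν (c • (s * b)) ^ poleB 𝒞 s ≤ θ * ν s ^ (m + 1) := by
        have hb' := ih (poleB 𝒞 b) (by omega) b hb0 rfl
        calc ν (c • (s * b)) ^ poleB 𝒞 s ≤ ν (s * b) ^ poleB 𝒞 s :=
              pow_le_pow_left₀ zero_le (ni_val_smul_le ν hν c _) _
          _ = ν s ^ poleB 𝒞 s * ν b ^ poleB 𝒞 s := by rw [ν.map_mul, mul_pow]
          _ ≤ ν s ^ poleB 𝒞 s * (θ * ν s ^ poleB 𝒞 b) := mul_le_mul_right hb' _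
          _ = θ * ν s ^ (m + 1) := by
              rw [hpb, mul_left_comm, ← pow_add]
              congr 2
              omega
      have hbound2 : ν (a - c • (s * b)) ^ poleB 𝒞 s ≤ θ * ν s ^ (m + 1) := by
        by_cases h0 : a - c • (s * b) = 0
        · rw [h0, ν.map_zero, zero_pow (by omega)]
          exact zero_le
        · have hp := (hB.mem_iff_pole _ m).mp hc
          have := ih _ (by omega) _ h0 rfl
          exact this.trans (mul_le_mul_right (pow_le_pow_right₀ hσ (by omega)) _)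
      rcases le_max_iff.mp hle with h' | h'
      · exact (pow_le_pow_left₀ zero_le h' _).trans hbound1
      · exact (pow_le_pow_left₀ zero_le h' _).trans hbound2

/-- **Upper bound.** -/
theorem ni_upper {s : QQbar ⊗[ℚ] R} (hs : s ≠ 0) (hd : 1 ≤ poleB 𝒞 s) (hσ : 1 ≤ ν s)
    (h2 : 2 ≤ poleB 𝒞 s ∨ 1 < ν s) (a : QQbar ⊗[ℚ] R) (ha : a ≠ 0) :
    ν a ^ poleB 𝒞 s ≤ ν s ^ poleB 𝒞 a := by
  haveI := 𝒞.bar_dedekind
  have hσ0 : 0 < ν s := lt_of_lt_of_le zero_lt_one hσ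
  have hσp : ∀ k : ℕ, 0 < ν s ^ k := fun k => pow_pos hσ0 k
  obtain ⟨G, hG1, hG⟩ := ni_gens hB ν hν (𝒞.m₀ + poleB 𝒞 s)
  obtain ⟨b, hbG, hbmax⟩ := Finset.exists_max_image G
    (fun g => ν g ^ poleB 𝒞 s / ν s ^ poleB 𝒞 g) ⟨1, hG1⟩
  obtain ⟨θ, hθdef⟩ : ∃ θ : Γ₀, θ = ν b ^ poleB 𝒞 s / ν s ^ poleB 𝒞 b := ⟨_, rfl⟩
  have hθb : ν b ^ poleB 𝒞 s = θ * ν s ^ poleB 𝒞 b := by
    rw [hθdef, div_mul_cancel₀ _ (hσp _).ne']
  have hθ1 : 1 ≤ θ := by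
    have := hbmax 1 hG1
    simp only [ν.map_one, one_pow, ni_pole_one hB, pow_zero, div_one] at this
    rw [hθdef]
    exact this
  have hθ0 : 0 < θ := lt_of_lt_of_le zero_lt_one hθ1
  have hθG : ∀ g ∈ G, ν g ^ poleB 𝒞 s ≤ θ * ν s ^ poleB 𝒞 g := by
    intro g hg
    have := hbmax g hg
    rw [← hθdef] at this
    calc ν g ^ poleB 𝒞 s = ν g ^ poleB 𝒞 s / ν s ^ poleB 𝒞 g * ν s ^ poleB 𝒞 g :=
          (div_mul_cancel₀ _ (hσp _).ne').symm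
      _ ≤ θ * ν s ^ poleB 𝒞 g := mul_le_mul_left this _
  have hθM : ∀ a ∈ WBar 𝒞 (𝒞.m₀ + poleB 𝒞 s), a ≠ 0 →
      ν a ^ poleB 𝒞 s ≤ θ * ν s ^ poleB 𝒞 a := by
    intro a ha ha0
    obtain ⟨g, hg, hgp, hgv⟩ := hG a ha ha0
    calc ν a ^ poleB 𝒞 s ≤ ν g ^ poleB 𝒞 s := pow_le_pow_left₀ zero_le hgv _
      _ ≤ θ * ν s ^ poleB 𝒞 g := hθG g hg
      _ ≤ θ * ν s ^ poleB 𝒞 a := mul_le_mul_right (pow_le_pow_right₀ hσ hgp) _
  have hall := ni_bound hB ν hν hs hd hσ θ hθM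
  rcases le_or_gt θ 1 with hle | hgt
  · calc ν a ^ poleB 𝒞 s ≤ θ * ν s ^ poleB 𝒞 a := hall _ a ha rfl
      _ ≤ 1 * ν s ^ poleB 𝒞 a := mul_le_mul_left hle _
      _ = ν s ^ poleB 𝒞 a := one_mul _
  · exfalso
    have hb0 : b ≠ 0 := by
      rintro rfl
      rw [ν.map_zero, zero_pow (by omega)] at hθb
      exact (mul_pos hθ0 (hσp _)).ne hθb
    obtain ⟨c, g, hdec, hc, hg⟩ := ni_decomp hB hb0 hs hd
    have hcs : ν (c • s ^ poleB 𝒞 b) = ν s ^ poleB 𝒞 b := by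
      rw [ni_val_smul ν hν hc, ν.map_pow]
    have hlt : ν (c • s ^ poleB 𝒞 b) < ν (b ^ poleB 𝒞 s) := by
      rw [hcs, ν.map_pow, hθb]
      calc ν s ^ poleB 𝒞 b = 1 * ν s ^ poleB 𝒞 b := (one_mul _).symm
        _ < θ * ν s ^ poleB 𝒞 b := mul_lt_mul_of_pos_right hgt (hσp _)
    have hgv : ν g = θ * ν s ^ poleB 𝒞 b := by
      have hgeq : g = b ^ poleB 𝒞 s - c • s ^ poleB 𝒞 b := by
        rw [hdec]
        ring
      rw [hgeq, Valuation.map_sub_eq_of_lt_left ν hlt, ν.map_pow, hθb]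
    have hg0 : g ≠ 0 := by
      rintro rfl
      rw [ν.map_zero] at hgv
      exact (mul_pos hθ0 (hσp _)).ne hgv
    have hgp := hg hg0
    have hgb := hall _ g hg0 rfl
    rw [hgv, mul_pow, ← pow_mul] at hgb
    -- `θ ^ d * σ ^ (p d) ≤ θ * σ ^ q` with `q < p d`
    have hcontra : θ * ν s ^ poleB 𝒞 g < θ ^ poleB 𝒞 s * ν s ^ (poleB 𝒞 b * poleB 𝒞 s) := by
      rcases h2 with h2 | h2
      · calc θ * ν s ^ poleB 𝒞 g < θ ^ poleB 𝒞 s * ν s ^ poleB 𝒞 g :=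
              mul_lt_mul_of_pos_right (lt_self_pow₀ hgt h2) (hσp _)
          _ ≤ θ ^ poleB 𝒞 s * ν s ^ (poleB 𝒞 b * poleB 𝒞 s) :=
              mul_le_mul_right (pow_le_pow_right₀ hσ hgp.le) _
      · calc θ * ν s ^ poleB 𝒞 g < θ * ν s ^ (poleB 𝒞 b * poleB 𝒞 s) :=
              mul_lt_mul_of_pos_left (pow_lt_pow_right₀ h2 hgp) hθ0
          _ ≤ θ ^ poleB 𝒞 s * ν s ^ (poleB 𝒞 b * poleB 𝒞 s) :=
              mul_le_mul_left (Bound.le_self_pow_of_pos hθ1 hd) _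
    exact absurd hgb (not_le.mpr hcontra)

/-- **Lower bound.** -/
theorem ni_lower {s : QQbar ⊗[ℚ] R} (hs : s ≠ 0) (hd : 1 ≤ poleB 𝒞 s) (hσ : 1 < ν s)
    (a : QQbar ⊗[ℚ] R) (ha : a ≠ 0) :
    ν s ^ poleB 𝒞 a ≤ ν a ^ poleB 𝒞 s := by
  haveI := 𝒞.bar_dedekind
  obtain ⟨c, g, hdec, hc, hg⟩ := ni_decomp hB ha hs hd
  have hcs : ν (c • s ^ poleB 𝒞 a) = ν s ^ poleB 𝒞 a := by
    rw [ni_val_smul ν hν hc, ν.map_pow]
  have hglt : ν g < ν s ^ poleB 𝒞 a := by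
    by_cases hg0 : g = 0
    · rw [hg0, ν.map_zero]
      exact pow_pos (lt_trans zero_lt_one hσ) _
    · have h1 := ni_upper hB ν hν hs hd hσ.le (Or.inr hσ) g hg0
      have h2 : ν s ^ poleB 𝒞 g < (ν s ^ poleB 𝒞 a) ^ poleB 𝒞 s := by
        rw [← pow_mul]
        exact pow_lt_pow_right₀ hσ (hg hg0)
      exact lt_of_pow_lt_pow_left' _ (lt_of_le_of_lt h1 h2)
  have heq : c • s ^ poleB 𝒞 a = a ^ poleB 𝒞 s - g := by
    rw [hdec]
    ring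
  have h3 : ν (c • s ^ poleB 𝒞 a) ≤ max (ν (a ^ poleB 𝒞 s)) (ν g) := by
    rw [heq]
    exact ν.map_sub _ _
  rw [hcs, ν.map_pow] at h3
  rcases le_max_iff.mp h3 with h | h
  · exact h
  · exact absurd h (not_le.mpr hglt)

/-- The abstract form of the statement, for a valuation on `ℚ̄ ⊗ R`. -/
theorem ni_main : (∀ a : QQbar ⊗[ℚ] R, ν a ≤ 1) ∨
    (1 < ν (tBar 𝒞) ∧ ∀ a : QQbar ⊗[ℚ] R, a ≠ 0 →
      ν a ^ 𝒞.e = ν (tBar 𝒞) ^ poleB 𝒞 a) := by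
  haveI := 𝒞.bar_dedekind
  have hpt := ni_pole_t hB
  have he := 𝒞.e_pos
  have hne : ∀ s : QQbar ⊗[ℚ] R, poleB 𝒞 s = 𝒞.e → s ≠ 0 := by
    rintro s hs rfl
    rw [ni_pole_zero hB] at hs
    omega
  rcases le_or_gt (ν (tBar 𝒞)) 1 with hle | hgt
  · left
    obtain ⟨s₀, hs₀p, hs₀v⟩ : ∃ s₀ : QQbar ⊗[ℚ] R, poleB 𝒞 s₀ = 𝒞.e ∧ ν s₀ = 1 := by
      rcases eq_or_lt_of_le hle with h | h
      · exact ⟨tBar 𝒞, hpt, h⟩
      · refine ⟨tBar 𝒞 + algebraMap QQbar (QQbar ⊗[ℚ] R) 1, ?_, ?_⟩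
        · rw [ni_pole_add_const hB, hpt]
        · rw [map_one, add_comm]
          exact ν.map_one_add_of_lt h
    have hs₀0 : s₀ ≠ 0 := hne s₀ hs₀p
    have hp2 : poleB 𝒞 (s₀ ^ 2) = 2 * 𝒞.e := by rw [ni_pole_pow hB hs₀0, hs₀p]
    have hv2 : ν (s₀ ^ 2) = 1 := by rw [ν.map_pow, hs₀v, one_pow]
    intro a
    by_cases ha : a = 0
    · rw [ha, ν.map_zero]
      exact zero_le
    have h := ni_upper hB ν hν (pow_ne_zero 2 hs₀0) (by omega) hv2.ge (Or.inl (by omega)) a ha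
    rw [hv2, one_pow] at h
    refine le_of_pow_le_pow_left₀ (n := poleB 𝒞 (s₀ ^ 2)) (by omega) zero_le ?_
    rw [one_pow]
    exact h
  · right
    refine ⟨hgt, fun a ha => ?_⟩
    have h1 := ni_upper hB ν hν (hne _ hpt) (by omega) hgt.le (Or.inr hgt) a ha
    have h2 := ni_lower hB ν hν (hne _ hpt) (by omega) hgt a ha
    rw [hpt] at h1 h2
    exact le_antisymm h1 h2

end Val

/-- **LPF-G-NORMINF.** -/
theorem normInf (𝒞 : MWDatum R) (hB : BarFacts 𝒞) : NormInfStatement 𝒞 := by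
  intro 𝒦 _ V φ hφ
  have hν : ∀ c : QQbar, (V.valuation.comap φ) (algebraMap QQbar (QQbar ⊗[ℚ] R) c) ≤ 1 :=
    fun c => (V.valuation_le_one_iff _).mpr (hφ c)
  rcases ni_main hB (V.valuation.comap φ) hν with h | h
  · left
    intro a
    exact (V.valuation_le_one_iff _).mp (h a)
  · right
    exact h

end Fermat.Agent.H65.MW
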